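/-
S18 / H42 : dictionary between the Prelude's `AlgebraicCurve.Place K F` and the height-one
primes of a Dedekind domain `B` with `K ⊆ B`, `Frac B = F`.

* `primeOrd v f`            : the additive `v`-adic valuation of `f ∈ F`.
* `placeOfPrime v`          : the place of `F/K` attached to `v`, with `ord = primeOrd v`.
* `exists_placeOfPrime_eq`  : a place whose valuation ring contains `B` is `placeOfPrime v`
                              for a (unique) `v`.

Built on the landed `Fermat/Agent/S24/H52/AddVal.lean`.  (helper42)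
-/
import Mathlib
import Fermat.Prelude.Def_AlgebraicCurve_DivisorClassGroup
import Fermat.Agent.S24.H52.AddVal

set_option autoImplicit false
set_option linter.unusedSectionVars false

open AlgebraicCurve IsDedekindDomain

namespace Fermat.Agent.S18.H42

open Fermat.Agent.S24.H52

noncomputable section

variable {K F : Type*} [Field K] [Field F] [Algebra K F]
variable {B : Type*} [CommRing B] [IsDedekindDomain B] [Algebra B F] [IsFractionRing B F]

/-- The additive `v`-adic valuation on `F = Frac B`. -/
def primeOrd (v : HeightOneSpectrum B) (f : F) : ℤ := -(WithZero.log (v.valuation F f))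

theorem primeOrd_def (v : HeightOneSpectrum B) (f : F) :
    primeOrd v f = -(WithZero.log (v.valuation F f)) := rfl

theorem isAddVal_primeOrd (v : HeightOneSpectrum B) : IsAddVal (primeOrd (F := F) v) where
  map_one := by simp [primeOrd]
  map_mul := by
    intro f g hf hg
    have hf' : v.valuation F f ≠ 0 := (Valuation.ne_zero_iff _).mpr hf
    have hg' : v.valuation F g ≠ 0 := (Valuation.ne_zero_iff _).mpr hg
    simp only [primeOrd, map_mul]
    rw [WithZero.log_mul hf' hg']
    ring
  map_add := by
    intro f g hf hg hfg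
    have h := Valuation.map_add (v.valuation F) f g
    have hf' : v.valuation F f ≠ 0 := (Valuation.ne_zero_iff _).mpr hf
    have hg' : v.valuation F g ≠ 0 := (Valuation.ne_zero_iff _).mpr hg
    have hfg' : v.valuation F (f + g) ≠ 0 := (Valuation.ne_zero_iff _).mpr hfg
    simp only [primeOrd]
    rcases le_max_iff.mp h with h1 | h1
    · have := (WithZero.log_le_log hfg' hf').mpr h1
      exact le_trans (min_le_left _ _) (by omega)
    · have := (WithZero.log_le_log hfg' hg').mpr h1
      exact le_trans (min_le_right _ _) (by omega)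

theorem primeOrd_nonneg_iff (v : HeightOneSpectrum B) {f : F} (hf : f ≠ 0) :
    0 ≤ primeOrd v f ↔ v.valuation F f ≤ 1 := by
  have hf' : v.valuation F f ≠ 0 := (Valuation.ne_zero_iff _).mpr hf
  rw [primeOrd, ← WithZero.log_le_log hf' one_ne_zero, WithZero.log_one]
  constructor <;> intro h <;> omega

theorem primeOrd_pos_iff (v : HeightOneSpectrum B) {f : F} (hf : f ≠ 0) :
    0 < primeOrd v f ↔ v.valuation F f < 1 := by
  have hf' : v.valuation F f ≠ 0 := (Valuation.ne_zero_iff _).mpr hf
  rw [primeOrd, ← WithZero.log_lt_log hf' one_ne_zero, WithZero.log_one]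
  constructor <;> intro h <;> omega

theorem primeOrd_algebraMap_nonneg (v : HeightOneSpectrum B) (b : B) :
    0 ≤ primeOrd v (algebraMap B F b) := by
  by_cases hb : algebraMap B F b = 0
  · simp [primeOrd, hb]
  · exact (primeOrd_nonneg_iff v hb).mpr (v.valuation_le_one b)

theorem primeOrd_algebraMap_pos_iff (v : HeightOneSpectrum B) {b : B} (hb : b ≠ 0) :
    0 < primeOrd v (algebraMap B F b) ↔ b ∈ v.asIdeal := by
  have hb' : algebraMap B F b ≠ 0 := by
    simpa using (IsFractionRing.injective B F).ne hb
  rw [primeOrd_pos_iff v hb', v.valuation_lt_one_iff_mem]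

theorem exists_primeOrd_eq_one (v : HeightOneSpectrum B) : ∃ t : F, t ≠ 0 ∧ primeOrd v t = 1 := by
  obtain ⟨π, hπ⟩ := v.valuation_exists_uniformizer F
  have hπ0 : π ≠ 0 := by
    rintro rfl
    rw [map_zero] at hπ
    exact WithZero.exp_ne_zero hπ.symm
  refine ⟨π, hπ0, ?_⟩
  rw [primeOrd, hπ]
  simp

variable [Algebra K B] [IsScalarTower K B F]

theorem primeOrd_algebraMap_field_nonneg (v : HeightOneSpectrum B) (a : K) :
    0 ≤ primeOrd v (algebraMap K F a) := by
  rw [IsScalarTower.algebraMap_apply K B F]
  exact primeOrd_algebraMap_nonneg v _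

/-- The place of `F/K` attached to a height-one prime of `B`. -/
def placeOfPrime (v : HeightOneSpectrum B) : Place K F :=
  (isAddVal_primeOrd (F := F) v).place (fun a _ => primeOrd_algebraMap_field_nonneg v a) (by
    obtain ⟨t, ht0, ht⟩ := exists_primeOrd_eq_one (F := F) v
    exact ⟨t⁻¹, inv_ne_zero ht0, by rw [(isAddVal_primeOrd v).map_inv ht0, ht]; norm_num⟩)

theorem placeOfPrime_ord (v : HeightOneSpectrum B) {f : F} (hf : f ≠ 0) :
    (placeOfPrime (K := K) v).ord f = primeOrd v f :=
  (isAddVal_primeOrd (F := F) v).place_ord_eq _ _ (exists_primeOrd_eq_one v) f hf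

theorem mem_placeOfPrime_iff (v : HeightOneSpectrum B) {f : F} (hf : f ≠ 0) :
    f ∈ (placeOfPrime (K := K) v).toValuationSubring ↔ v.valuation F f ≤ 1 := by
  rw [← primeOrd_nonneg_iff v hf]
  exact (isAddVal_primeOrd (F := F) v).mem_valuationSubring_iff_of_ne hf

theorem algebraMap_mem_placeOfPrime (v : HeightOneSpectrum B) (b : B) :
    algebraMap B F b ∈ (placeOfPrime (K := K) v).toValuationSubring := by
  by_cases hb : algebraMap B F b = 0
  · rw [hb]; exact ValuationSubring.zero_mem _
  · exact (mem_placeOfPrime_iff v hb).mpr (v.valuation_le_one b)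

theorem placeOfPrime_injective :
    Function.Injective (placeOfPrime (K := K) (F := F) (B := B)) := by
  intro v w h
  apply HeightOneSpectrum.ext
  ext b
  by_cases hb : b = 0
  · simp [hb]
  have hb' : algebraMap B F b ≠ 0 := by
    simpa using (IsFractionRing.injective B F).ne hb
  rw [← primeOrd_algebraMap_pos_iff (F := F) v hb, ← primeOrd_algebraMap_pos_iff (F := F) w hb,
    ← placeOfPrime_ord (K := K) v hb', ← placeOfPrime_ord (K := K) w hb', h]

/-- The ring homomorphism `B → O_P` for a place whose valuation ring contains `B`. -/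
def toPlaceRing (P : Place K F) (hB : ∀ b : B, algebraMap B F b ∈ P.toValuationSubring) :
    B →+* P.toValuationSubring :=
  (algebraMap B F).codRestrict P.toValuationSubring.toSubring hB

/-- The centre on `B` of a place whose valuation ring contains `B`. -/
def centre (P : Place K F) (hB : ∀ b : B, algebraMap B F b ∈ P.toValuationSubring) : Ideal B :=
  Ideal.comap (toPlaceRing P hB) (IsLocalRing.maximalIdeal P.toValuationSubring)

omit [IsDedekindDomain B] [IsFractionRing B F] [Algebra K B] [IsScalarTower K B F] in
theorem ord_eq_zero_of_not_mem_centre (P : Place K F)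
    (hB : ∀ b : B, algebraMap B F b ∈ P.toValuationSubring) {b : B} (hb : b ∉ centre P hB) :
    P.ord (algebraMap B F b) = 0 := by
  have hu : IsUnit (toPlaceRing P hB b) := by
    by_contra hnu
    exact hb ((IsLocalRing.mem_maximalIdeal _).mpr hnu)
  exact P.ord_coe_unit hu.unit

theorem ord_pos_of_mem_centre (P : Place K F)
    (hB : ∀ b : B, algebraMap B F b ∈ P.toValuationSubring) {b : B} (hb : b ∈ centre P hB)
    (hb0 : b ≠ 0) : 0 < P.ord (algebraMap B F b) := by
  have hb' : algebraMap B F b ≠ 0 := by
    simpa using (IsFractionRing.injective B F).ne hb0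
  have h0 : 0 ≤ P.ord (algebraMap B F b) := ord_nonneg_of_mem P (hB b)
  rcases h0.lt_or_eq with h | h
  · exact h
  · exfalso
    have hinv : (algebraMap B F b)⁻¹ ∈ P.toValuationSubring := by
      rw [mem_iff_ord_nonneg P (inv_ne_zero hb'), P.ord_inv, ← h, neg_zero]
    have hnu : ¬ IsUnit (toPlaceRing P hB b) := (IsLocalRing.mem_maximalIdeal _).mp hb
    apply hnu
    refine IsUnit.of_mul_eq_one (⟨(algebraMap B F b)⁻¹, hinv⟩ : P.toValuationSubring) ?_
    apply Subtype.ext
    show algebraMap B F b * (algebraMap B F b)⁻¹ = 1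
    exact mul_inv_cancel₀ hb'

theorem centre_ne_bot (P : Place K F) (hB : ∀ b : B, algebraMap B F b ∈ P.toValuationSubring) :
    centre P hB ≠ ⊥ := by
  intro hbot
  apply P.ne_top'
  refine SetLike.ext fun f => ⟨fun _ => ValuationSubring.mem_top f, fun _ => ?_⟩
  obtain ⟨a, s, hs, rfl⟩ := IsFractionRing.div_surjective (A := B) f
  have hs0 : s ≠ 0 := nonZeroDivisors.ne_zero hs
  have hs' : algebraMap B F s ≠ 0 := by
    simpa using (IsFractionRing.injective B F).ne hs0
  have hsc : s ∉ centre P hB := by
    rw [hbot]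
    exact hs0
  have h1 := ord_eq_zero_of_not_mem_centre P hB hsc
  have hinv : (algebraMap B F s)⁻¹ ∈ P.toValuationSubring := by
    rw [mem_iff_ord_nonneg P (inv_ne_zero hs'), P.ord_inv, h1, neg_zero]
  rw [div_eq_mul_inv]
  exact P.toValuationSubring.mul_mem _ _ (hB a) hinv

/-- The height-one prime of `B` which is the centre of a place containing `B`. -/
def primeOfPlace (P : Place K F) (hB : ∀ b : B, algebraMap B F b ∈ P.toValuationSubring) :
    HeightOneSpectrum B where
  asIdeal := centre P hB
  isPrime := Ideal.comap_isPrime _ _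
  ne_bot := centre_ne_bot P hB

theorem placeOfPrime_primeOfPlace (P : Place K F)
    (hB : ∀ b : B, algebraMap B F b ∈ P.toValuationSubring) :
    placeOfPrime (primeOfPlace P hB) = P := by
  set v := primeOfPlace P hB with hv
  have hle : ∀ f : F, f ≠ 0 → f ∈ (placeOfPrime (K := K) v).toValuationSubring → 0 ≤ P.ord f := by
    intro f hf hmem
    have hval : v.valuation F f ≤ 1 := (mem_placeOfPrime_iff v hf).mp hmem
    obtain ⟨n, d, hnd⟩ := v.exists_primeCompl_mul_eq_of_integer f hval
    have hd : (d : B) ∉ centre P hB := d.2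
    have hd0 : (d : B) ≠ 0 := fun h => hd (by rw [h]; exact Ideal.zero_mem _)
    have hd' : algebraMap B F (d : B) ≠ 0 := by
      simpa using (IsFractionRing.injective B F).ne hd0
    have h1 := ord_eq_zero_of_not_mem_centre P hB hd
    have h2 : P.ord (f * algebraMap B F (d : B)) = P.ord f := by
      rw [P.ord_mul hf hd', h1, add_zero]
    rw [← h2, hnd]
    exact ord_nonneg_of_mem P (hB n)
  have hnt : ∃ g : F, g ≠ 0 ∧ P.ord g ≠ 0 := by
    obtain ⟨π, hπ⟩ := IsDiscreteValuationRing.exists_irreducible P.toValuationSubring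
    refine ⟨(π : F), ?_, ?_⟩
    · simpa [ne_eq, ZeroMemClass.coe_eq_zero] using hπ.ne_zero
    · rw [P.ord_coe_irreducible hπ]
      exact one_ne_zero
  have key := mem_iff_of_le (placeOfPrime (K := K) v) (isAddVal_ord P) hle hnt
  apply Place.ext
  apply SetLike.ext
  intro f
  by_cases hf : f = 0
  · rw [hf]
    exact ⟨fun _ => ValuationSubring.zero_mem _, fun _ => ValuationSubring.zero_mem _⟩
  · rw [key f hf, mem_iff_ord_nonneg P hf]

theorem exists_placeOfPrime_eq (P : Place K F)
    (hB : ∀ b : B, algebraMap B F b ∈ P.toValuationSubring) :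
    ∃ v : HeightOneSpectrum B, placeOfPrime v = P :=
  ⟨primeOfPlace P hB, placeOfPrime_primeOfPlace P hB⟩

theorem primeOfPlace_placeOfPrime (v : HeightOneSpectrum B) :
    primeOfPlace (placeOfPrime (K := K) (F := F) v) (algebraMap_mem_placeOfPrime v) = v :=
  placeOfPrime_injective (placeOfPrime_primeOfPlace _ _)

end

end Fermat.Agent.S18.H42
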