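/-
S18 / H42 : the `x`-chart of a function field `F/K`.

`Rx K x = K[x] ⊆ F` (a PID when `x` is transcendental), `Bx K x` = its integral closure in `F`
(a Dedekind domain with fraction field `F` when `F/K(x)` is finite, `char K = 0`).
Places `P` of `F/K` with `x ∈ O_P` correspond to the height-one primes of `Bx K x`.
(helper42)
-/
import Mathlib
import Fermat.Agent.S18.H42.PlaceDict

set_option autoImplicit false
set_option linter.unusedSectionVars false
set_option linter.style.haveILetI false

open AlgebraicCurve IsDedekindDomain Polynomial IntermediateField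
open scoped IntermediateField.algebraAdjoinAdjoin

namespace Fermat.Agent.S18.H42

open Fermat.Agent.S24.H52

noncomputable section

variable (K : Type*) {F : Type*} [Field K] [Field F] [Algebra K F] (x : F)

/-- `K[x] ⊆ F`. -/
abbrev Rx : Subalgebra K F := Algebra.adjoin K {x}

/-- The integral closure of `K[x]` in `F`. -/
abbrev Bx : Subalgebra (Rx K x) F := integralClosure (Rx K x) F

/-- `x` as an element of `K[x]`. -/
def xR : Rx K x := ⟨x, Algebra.self_mem_adjoin_singleton K x⟩

theorem pid_Rx (hx : Transcendental K x) : IsPrincipalIdealRing (Rx K x) :=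
  IsPrincipalIdealRing.of_surjective
    (Polynomial.algEquivOfTranscendental K x hx).toRingEquiv.toRingHom
    (Polynomial.algEquivOfTranscendental K x hx).surjective

section Instances

variable [hx : Fact (Transcendental K x)] [FiniteDimensional K⟮x⟯ F] [CharZero K]

namespace ChartInst

scoped instance instPidRx : IsPrincipalIdealRing (Rx K x) := pid_Rx K x hx.out

scoped instance instDedekindBx : IsDedekindDomain (Bx K x) :=
  integralClosure.isDedekindDomain (Rx K x) K⟮x⟯ F

scoped instance instFracBx : IsFractionRing (Bx K x) F :=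
  integralClosure.isFractionRing_of_finite_extension K⟮x⟯ F

scoped instance instFiniteBx : Module.Finite (Rx K x) (Bx K x) :=
  IsIntegralClosure.finite (Rx K x) K⟮x⟯ F (Bx K x)

end ChartInst

open scoped ChartInst

variable {K x}

omit hx [FiniteDimensional K⟮x⟯ F] [CharZero K] in
/-- A place whose valuation ring contains `x` contains `K[x]`. -/
theorem Rx_mem_of_mem (P : Place K F) (hxP : x ∈ P.toValuationSubring) {y : F}
    (h : y ∈ Rx K x) : y ∈ P.toValuationSubring := by
  induction h using Algebra.adjoin_induction with
  | mem y hy =>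
    rw [Set.mem_singleton_iff] at hy
    rw [hy]
    exact hxP
  | algebraMap a => exact P.algebraMap_mem' a
  | add y z _ _ hy hz => exact P.toValuationSubring.add_mem _ _ hy hz
  | mul y z _ _ hy hz => exact P.toValuationSubring.mul_mem _ _ hy hz

/-- A place whose valuation ring contains `x` contains the integral closure of `K[x]`. -/
theorem Bx_mem_of_mem (P : Place K F) (hxP : x ∈ P.toValuationSubring) (b : Bx K x) :
    algebraMap (Bx K x) F b ∈ P.toValuationSubring := by
  have hint : IsIntegral (Rx K x) (b : F) := b.2
  -- integral over the valuation ring, which is integrally closed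
  let φ : Rx K x →+* P.toValuationSubring :=
    (algebraMap (Rx K x) F).codRestrict P.toValuationSubring.toSubring
      (fun r => Rx_mem_of_mem P hxP r.2)
  have hint' : IsIntegral P.toValuationSubring (b : F) := by
    obtain ⟨p, hpm, hp⟩ := hint
    refine ⟨p.map φ, hpm.map φ, ?_⟩
    rw [← hp, Polynomial.eval₂_map]
    rfl
  obtain ⟨y, hy⟩ := IsIntegrallyClosed.isIntegral_iff.mp hint'
  have : (b : F) = (y : F) := hy.symm
  show (b : F) ∈ P.toValuationSubring
  rw [this]
  exact y.2

variable (K x) in
/-- `x - c` as an element of `K[x]`. -/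
def xsubR (c : K) : Rx K x :=
  ⟨x - algebraMap K F c, Subalgebra.sub_mem _ (Algebra.self_mem_adjoin_singleton K x)
    (Subalgebra.algebraMap_mem _ c)⟩

variable (K x) in
/-- `x - c` as an element of the integral closure of `K[x]`. -/
def xsubB (c : K) : Bx K x := algebraMap (Rx K x) (Bx K x) (xsubR K x c)

omit hx [FiniteDimensional K⟮x⟯ F] [CharZero K] in
@[simp]
theorem coe_xsubB (c : K) : algebraMap (Bx K x) F (xsubB K x c) = x - algebraMap K F c := rfl

omit [FiniteDimensional K⟮x⟯ F] [CharZero K] in
theorem x_sub_ne_zero (c : K) : x - algebraMap K F c ≠ 0 := by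
  intro h
  apply hx.out
  rw [sub_eq_zero] at h
  rw [h]
  exact isAlgebraic_algebraMap c

omit [FiniteDimensional K⟮x⟯ F] [CharZero K] in
theorem xsubB_ne_zero (c : K) : xsubB K x c ≠ 0 := by
  intro h
  apply x_sub_ne_zero (K := K) (x := x) c
  rw [← coe_xsubB, h, map_zero]

variable (K x) in
/-- The place of `F/K` attached to a height-one prime of the `x`-chart. -/
def chartPlace (v : HeightOneSpectrum (Bx K x)) : Place K F := placeOfPrime v

/-- The prime of the `x`-chart attached to a place with `x ∈ O_P`. -/
def chartPrime (P : Place K F) (hxP : x ∈ P.toValuationSubring) : HeightOneSpectrum (Bx K x) :=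
  primeOfPlace P (Bx_mem_of_mem P hxP)

theorem chartPlace_chartPrime (P : Place K F) (hxP : x ∈ P.toValuationSubring) :
    chartPlace K x (chartPrime P hxP) = P :=
  placeOfPrime_primeOfPlace P _

theorem chartPlace_injective : Function.Injective (chartPlace K x) :=
  placeOfPrime_injective

theorem x_mem_chartPlace (v : HeightOneSpectrum (Bx K x)) :
    x ∈ (chartPlace K x v).toValuationSubring := by
  have h := algebraMap_mem_placeOfPrime (K := K) (F := F) v
    (algebraMap (Rx K x) (Bx K x) (xR K x))
  exact h

theorem chartPlace_ord (v : HeightOneSpectrum (Bx K x)) {f : F} (hf : f ≠ 0) :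
    (chartPlace K x v).ord f = primeOrd v f :=
  placeOfPrime_ord v hf

/-- A place lies over `c` iff `x - c` lies in the corresponding prime. -/
theorem chartPlace_over_iff (v : HeightOneSpectrum (Bx K x)) (c : K) :
    0 < (chartPlace K x v).ord (x - algebraMap K F c) ↔ xsubB K x c ∈ v.asIdeal := by
  rw [chartPlace_ord v (x_sub_ne_zero c), ← coe_xsubB,
    primeOrd_algebraMap_pos_iff v (xsubB_ne_zero c)]

omit [FiniteDimensional K⟮x⟯ F] [CharZero K] in
/-- A place over `c` contains `x` in its valuation ring. -/
theorem x_mem_of_over (P : Place K F) {c : K} (h : 0 < P.ord (x - algebraMap K F c)) :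
    x ∈ P.toValuationSubring := by
  have h1 : x - algebraMap K F c ∈ P.toValuationSubring :=
    (mem_iff_ord_nonneg P (x_sub_ne_zero c)).mpr h.le
  have := P.toValuationSubring.add_mem _ _ h1 (P.algebraMap_mem' c)
  simpa using this

variable (K x) in
/-- **FIB1** Finitely many places lie over `c`. -/
theorem finite_over' (c : K) : {P : Place K F | 0 < P.ord (x - algebraMap K F c)}.Finite := by
  have hfin : {v : HeightOneSpectrum (Bx K x) | v.asIdeal ∣ Ideal.span {xsubB K x c}}.Finite :=
    Ideal.finite_factors (by
      rw [Ne, Ideal.zero_eq_bot, Ideal.span_singleton_eq_bot]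
      exact xsubB_ne_zero c)
  refine (hfin.image (chartPlace K x)).subset ?_
  intro P hP
  refine ⟨chartPrime P (x_mem_of_over P hP), ?_, chartPlace_chartPrime P _⟩
  show (chartPrime P (x_mem_of_over P hP)).asIdeal ∣ Ideal.span {xsubB K x c}
  rw [Ideal.dvd_span_singleton, ← chartPlace_over_iff, chartPlace_chartPrime]
  exact hP

end Instances

end

end Fermat.Agent.S18.H42
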