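/-
S18 / H42 : the fibre of the `x`-chart over `x = c`:  `∑_{P | c} ord_P (x - c) = [F : K(x)]`.
(helper42)
-/
import Mathlib
import Fermat.Agent.S18.H42.Chart

set_option autoImplicit false
set_option linter.unusedSectionVars false
set_option linter.style.haveILetI false
set_option synthInstance.maxHeartbeats 200000
set_option maxHeartbeats 1000000

open AlgebraicCurve IsDedekindDomain Polynomial IntermediateField
open scoped IntermediateField.algebraAdjoinAdjoin

namespace Fermat.Agent.S18.H42

open Fermat.Agent.S24.H52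
open scoped ChartInst

noncomputable section

variable (K : Type*) {F : Type*} [Field K] [Field F] [Algebra K F] (x : F)
variable [hx : Fact (Transcendental K x)] [FiniteDimensional K⟮x⟯ F] [CharZero K]

/-- The maximal ideal `(x - c)` of `K[x]`. -/
def pc (c : K) : Ideal (Rx K x) := Ideal.span {xsubR K x c}

omit [FiniteDimensional K⟮x⟯ F] [CharZero K] in
theorem irreducible_xsubR (c : K) : Irreducible (xsubR K x c) := by
  have h : xsubR K x c = Polynomial.algEquivOfTranscendental K x hx.out (X - C c) := by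
    apply Subtype.ext
    simp [xsubR, Algebra.algebraMap_eq_smul_one]
  rw [h]
  exact (MulEquiv.irreducible_iff
    (Polynomial.algEquivOfTranscendental K x hx.out).toMulEquiv).mpr (irreducible_X_sub_C c)

omit [FiniteDimensional K⟮x⟯ F] [CharZero K] in
instance pc_isMaximal (c : K) : (pc K x c).IsMaximal :=
  PrincipalIdealRing.isMaximal_of_irreducible (irreducible_xsubR K x c)

omit [FiniteDimensional K⟮x⟯ F] [CharZero K] in
theorem xsubR_ne_zero (c : K) : xsubR K x c ≠ 0 := (irreducible_xsubR K x c).ne_zero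

omit [FiniteDimensional K⟮x⟯ F] [CharZero K] in
theorem pc_ne_bot (c : K) : pc K x c ≠ ⊥ := by
  rw [pc, Ne, Ideal.span_singleton_eq_bot]
  exact xsubR_ne_zero K x c

omit hx [FiniteDimensional K⟮x⟯ F] [CharZero K] in
theorem map_pc (c : K) :
    (pc K x c).map (algebraMap (Rx K x) (Bx K x)) = Ideal.span {xsubB K x c} := by
  rw [pc, Ideal.map_span, Set.image_singleton]
  rfl

theorem map_pc_ne_bot (c : K) : (pc K x c).map (algebraMap (Rx K x) (Bx K x)) ≠ ⊥ := by
  rw [map_pc, Ne, Ideal.span_singleton_eq_bot]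
  exact xsubB_ne_zero c

variable {K x}

omit hx [FiniteDimensional K⟮x⟯ F] [CharZero K] in
/-- Every element of `K[x]` is congruent to a constant modulo `x - c`. -/
theorem exists_const_sub_mem_pc (c : K) (r : Rx K x) :
    ∃ a : K, r - algebraMap K (Rx K x) a ∈ pc K x c := by
  obtain ⟨r, hr⟩ := r
  induction hr using Algebra.adjoin_induction with
  | mem y hy =>
    rw [Set.mem_singleton_iff] at hy
    subst hy
    refine ⟨c, ?_⟩
    have : (⟨y, Algebra.subset_adjoin (Set.mem_singleton y)⟩ : Rx K y) - algebraMap K (Rx K y) c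
        = xsubR K y c := rfl
    rw [this]
    exact Ideal.subset_span rfl
  | algebraMap a =>
    refine ⟨a, ?_⟩
    have : (⟨algebraMap K F a, Subalgebra.algebraMap_mem _ a⟩ : Rx K x) = algebraMap K (Rx K x) a :=
      rfl
    rw [this, sub_self]
    exact Ideal.zero_mem _
  | add y z hy hz ihy ihz =>
    obtain ⟨a, ha⟩ := ihy
    obtain ⟨b, hb⟩ := ihz
    refine ⟨a + b, ?_⟩
    have : (⟨y + z, Subalgebra.add_mem _ hy hz⟩ : Rx K x) - algebraMap K (Rx K x) (a + b)
        = ((⟨y, hy⟩ : Rx K x) - algebraMap K (Rx K x) a)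
          + ((⟨z, hz⟩ : Rx K x) - algebraMap K (Rx K x) b) := by
      rw [map_add]
      apply Subtype.ext
      simp only [Subalgebra.coe_sub, Subalgebra.coe_add]
      ring
    rw [this]
    exact Ideal.add_mem _ ha hb
  | mul y z hy hz ihy ihz =>
    obtain ⟨a, ha⟩ := ihy
    obtain ⟨b, hb⟩ := ihz
    refine ⟨a * b, ?_⟩
    have : (⟨y * z, Subalgebra.mul_mem _ hy hz⟩ : Rx K x) - algebraMap K (Rx K x) (a * b)
        = ((⟨y, hy⟩ : Rx K x) - algebraMap K (Rx K x) a) * (⟨z, hz⟩ : Rx K x)
          + algebraMap K (Rx K x) a * ((⟨z, hz⟩ : Rx K x) - algebraMap K (Rx K x) b) := by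
      rw [map_mul]
      apply Subtype.ext
      simp only [Subalgebra.coe_sub, Subalgebra.coe_add, Subalgebra.coe_mul]
      ring
    rw [this]
    exact Ideal.add_mem _ (Ideal.mul_mem_right _ _ ha) (Ideal.mul_mem_left _ _ hb)

/-- A prime of `Bx` containing `x - c` lies over `(x - c)`. -/
theorem liesOver_of_mem (c : K) (q : Ideal (Bx K x)) [hq : q.IsPrime] (h : xsubB K x c ∈ q) :
    q.LiesOver (pc K x c) := by
  rw [Ideal.liesOver_iff]
  refine (pc_isMaximal K x c).eq_of_le ?_ ?_
  · exact (Ideal.IsPrime.under (Rx K x) q).ne_top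
  · rw [pc, Ideal.span_le, Set.singleton_subset_iff]
    exact h

omit hx [FiniteDimensional K⟮x⟯ F] [CharZero K] in
theorem mem_of_liesOver (c : K) (q : Ideal (Bx K x)) [h : q.LiesOver (pc K x c)] :
    xsubB K x c ∈ q := by
  have h1 : xsubR K x c ∈ pc K x c := Ideal.subset_span rfl
  rw [(Ideal.liesOver_iff q (pc K x c)).mp h] at h1
  exact h1

/-- Ramification index over `(x - c)` = order of `x - c`. -/
theorem ramificationIdx_eq_primeOrd (c : K) (v : HeightOneSpectrum (Bx K x))
    (h : xsubB K x c ∈ v.asIdeal) :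
    (v.asIdeal.ramificationIdx (Rx K x) : ℤ) = primeOrd v (x - algebraMap K F c) := by
  haveI : v.asIdeal.LiesOver (pc K x c) := liesOver_of_mem c v.asIdeal h
  rw [Ideal.IsDedekindDomain.ramificationIdx_eq_multiplicity (pc K x c) v.asIdeal
    (map_pc_ne_bot K x c), map_pc, ← coe_xsubB, primeOrd, v.valuation_of_algebraMap,
    v.intValuation_eq_exp_neg_multiplicity (xsubB_ne_zero c), WithZero.log_exp, neg_neg]

/-- Over an algebraically closed constant field the residue field of a prime over `(x - c)`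
is `K`. -/
theorem exists_const_sub_mem [IsAlgClosed K] (c : K) (q : Ideal (Bx K x)) [hq : q.IsPrime]
    [hlo : q.LiesOver (pc K x c)] (b : Bx K x) :
    ∃ a : K, b - algebraMap K (Bx K x) a ∈ q := by
  haveI hqm : q.IsMaximal := Ideal.IsMaximal.of_liesOver_isMaximal q (pc K x c)
  letI : Field (Bx K x ⧸ q) := Ideal.Quotient.field q
  letI : Algebra (Rx K x ⧸ pc K x c) (Bx K x ⧸ q) := Ideal.Quotient.algebraOfLiesOver q (pc K x c)
  haveI : Algebra.IsIntegral K (Rx K x ⧸ pc K x c) := by
    refine ⟨fun w => ?_⟩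
    obtain ⟨r, rfl⟩ := Ideal.Quotient.mk_surjective w
    obtain ⟨a, ha⟩ := exists_const_sub_mem_pc c r
    have : Ideal.Quotient.mk (pc K x c) r = algebraMap K (Rx K x ⧸ pc K x c) a := by
      rw [IsScalarTower.algebraMap_apply K (Rx K x) (Rx K x ⧸ pc K x c)]
      exact Ideal.Quotient.eq.mpr ha
    rw [this]
    exact isIntegral_algebraMap
  haveI : IsScalarTower K (Rx K x ⧸ pc K x c) (Bx K x ⧸ q) :=
    Ideal.Quotient.isScalarTower_of_liesOver K q (pc K x c)
  haveI : Algebra.IsIntegral (Rx K x ⧸ pc K x c) (Bx K x ⧸ q) :=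
    Ideal.Quotient.algebra_isIntegral_of_liesOver q (pc K x c)
  haveI : Algebra.IsIntegral K (Bx K x ⧸ q) :=
    ⟨fun w => isIntegral_trans (A := Rx K x ⧸ pc K x c) w (Algebra.IsIntegral.isIntegral w)⟩
  obtain ⟨a, ha⟩ := (IsAlgClosed.algebraMap_bijective_of_isIntegral (k := K)
    (K := Bx K x ⧸ q)).2 (Ideal.Quotient.mk q b)
  refine ⟨a, ?_⟩
  rw [← Ideal.Quotient.eq, ← ha, IsScalarTower.algebraMap_apply K (Bx K x) (Bx K x ⧸ q)]
  rfl

theorem inertiaDeg_eq_one [IsAlgClosed K] (c : K) (q : Ideal (Bx K x)) [hq : q.IsPrime]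
    [hlo : q.LiesOver (pc K x c)] : q.inertiaDeg (Rx K x) = 1 := by
  haveI hqm : q.IsMaximal := Ideal.IsMaximal.of_liesOver_isMaximal q (pc K x c)
  letI : Field (Rx K x ⧸ pc K x c) := Ideal.Quotient.field _
  letI : Field (Bx K x ⧸ q) := Ideal.Quotient.field q
  letI : Algebra (Rx K x ⧸ pc K x c) (Bx K x ⧸ q) := Ideal.Quotient.algebraOfLiesOver q (pc K x c)
  have h1' : (1 : Bx K x ⧸ q) ≠ 0 := one_ne_zero
  rw [Ideal.inertiaDeg_eq_of_isMaximal (pc K x c) q,
    finrank_eq_one_iff_of_nonzero' (1 : Bx K x ⧸ q) h1']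
  intro w
  obtain ⟨b, rfl⟩ := Ideal.Quotient.mk_surjective w
  obtain ⟨a, ha⟩ := exists_const_sub_mem c q b
  refine ⟨Ideal.Quotient.mk _ (algebraMap K (Rx K x) a), ?_⟩
  rw [Algebra.smul_def, mul_one]
  symm
  rw [← sub_eq_zero]
  have h1 : algebraMap (Rx K x ⧸ pc K x c) (Bx K x ⧸ q)
      (Ideal.Quotient.mk _ (algebraMap K (Rx K x) a))
      = Ideal.Quotient.mk q (algebraMap K (Bx K x) a) := rfl
  rw [h1, ← map_sub, Ideal.Quotient.eq_zero_iff_mem]
  exact ha

/-- The height-one prime attached to a prime over `(x - c)`. -/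
def primeOfOver (c : K) (q : (pc K x c).primesOver (Bx K x)) : HeightOneSpectrum (Bx K x) where
  asIdeal := q.1
  isPrime := q.2.1
  ne_bot := by
    haveI := q.2.2
    intro h
    have h1 := mem_of_liesOver c q.1
    rw [h] at h1
    exact xsubB_ne_zero c h1

theorem primeOfOver_mem (c : K) (q : (pc K x c).primesOver (Bx K x)) :
    xsubB K x c ∈ (primeOfOver c q).asIdeal := by
  haveI := q.2.2
  exact mem_of_liesOver c q.1

theorem primeOfOver_injective (c : K) : Function.Injective (primeOfOver (K := K) (x := x) c) := by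
  intro q q' h
  apply Subtype.ext
  exact congrArg HeightOneSpectrum.asIdeal h

variable (K x) in
/-- **FIB2** `∑_{P | c} ord_P (x - c) = [F : K(x)]`. -/
theorem sum_ord_over' [IsAlgClosed K] (c : K) :
    ∑ P ∈ (finite_over' K x c).toFinset, P.ord (x - algebraMap K F c)
      = (Module.finrank K⟮x⟯ F : ℤ) := by
  classical
  haveI : Module.Free (Rx K x) (Bx K x) := Module.free_of_finite_type_torsion_free'
  haveI : Fintype ((pc K x c).primesOver (Bx K x)) :=
    (IsDedekindDomain.primesOver_finite (pc K x c) (Bx K x)).fintype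
  have key := Ideal.sum_ramification_inertia_eq_finrank (pc K x c) (Bx K x)
  have hrank : Module.finrank K⟮x⟯ F = Module.finrank (Rx K x) (Bx K x) :=
    IsFractionRing.finrank_eq (Rx K x) K⟮x⟯ (Bx K x) F
  set φ : (pc K x c).primesOver (Bx K x) → Place K F := fun q => chartPlace K x (primeOfOver c q)
    with hφ
  have hφinj : Function.Injective φ := fun q q' h =>
    primeOfOver_injective c (chartPlace_injective h)
  have himg : (finite_over' K x c).toFinset = Finset.univ.image φ := by
    ext P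
    simp only [Set.Finite.mem_toFinset, Finset.mem_image, Finset.mem_univ, true_and]
    constructor
    · intro hP
      have hP' : 0 < P.ord (x - algebraMap K F c) := hP
      have hmem : xsubB K x c ∈ (chartPrime P (x_mem_of_over P hP')).asIdeal := by
        rw [← chartPlace_over_iff, chartPlace_chartPrime]
        exact hP'
      haveI := (chartPrime P (x_mem_of_over P hP')).isPrime
      refine ⟨⟨(chartPrime P (x_mem_of_over P hP')).asIdeal, inferInstance,
        liesOver_of_mem c _ hmem⟩, ?_⟩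
      have : primeOfOver c ⟨(chartPrime P (x_mem_of_over P hP')).asIdeal, inferInstance,
          liesOver_of_mem c _ hmem⟩ = chartPrime P (x_mem_of_over P hP') :=
        HeightOneSpectrum.ext rfl
      rw [hφ]
      simp only
      rw [this, chartPlace_chartPrime]
    · rintro ⟨q, rfl⟩
      exact (chartPlace_over_iff _ c).mpr (primeOfOver_mem c q)
  rw [himg, Finset.sum_image (fun q _ q' _ h => hφinj h), hrank, ← key, Nat.cast_sum]
  refine Finset.sum_congr rfl fun q _ => ?_
  haveI := q.2.1
  haveI := q.2.2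
  rw [inertiaDeg_eq_one c q.1, mul_one]
  rw [hφ]
  simp only
  rw [chartPlace_ord _ (x_sub_ne_zero c)]
  exact (ramificationIdx_eq_primeOrd c (primeOfOver c q) (primeOfOver_mem c q)).symm

end

end Fermat.Agent.S18.H42
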