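/-
S18 / H42 : FIBRES of a function field `F/K` over the `x`-line — instance-free statements.

Standing hypotheses: `K` a field of characteristic zero (algebraically closed where stated),
`x ∈ F` transcendental over `K`, `[F : K(x)] < ∞`.  "`P` over `c`" means
`0 < P.ord (x - algebraMap K F c)`.

* `ord_aeval`     : `ord_P (p(x)) = rootMultiplicity c p * ord_P (x - c)` for `P` over `c`.
* `finite_over`   : finitely many places over `c`.
* `sum_ord_over`  : `∑_{P over c} ord_P (x - c) = [F : K(x)]`   (`K` algebraically closed).
* `exists_over`   : some place lies over `c`.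
(helper42)
-/
import Mathlib
import Fermat.Agent.S18.H42.FibreSum
import Fermat.Agent.S24.Ord

set_option autoImplicit false
set_option linter.unusedSectionVars false
set_option linter.style.haveILetI false

open AlgebraicCurve Polynomial IntermediateField

namespace Fermat.Agent.S18.H42

open Fermat.Agent.S24.H52

noncomputable section

variable {K F : Type*} [Field K] [Field F] [Algebra K F]

/-- **FIB4** The order of a polynomial in `x` at a place over `c`. -/
theorem ord_aeval (P : Place K F) {x : F} {c : K} (hP : 0 < P.ord (x - algebraMap K F c))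
    {p : K[X]} (hp : p ≠ 0) :
    aeval x p ≠ 0 ∧
      P.ord (aeval x p) = (p.rootMultiplicity c : ℤ) * P.ord (x - algebraMap K F c) := by
  have hπ0 : x - algebraMap K F c ≠ 0 := by
    intro h
    rw [h, Place.ord_zero] at hP
    exact lt_irrefl _ hP
  have hq : p.comp (X + C c) ≠ 0 := by
    intro h
    rw [Polynomial.comp_eq_zero_iff] at h
    rcases h with h | ⟨-, h⟩
    · exact hp h
    · have := congrArg (fun q => q.coeff 1) h
      simp at this
  have h2 : aeval x p = aeval (x - algebraMap K F c) (p.comp (X + C c)) := by
    rw [Polynomial.aeval_comp]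
    simp
  have h6 : (p.comp (X + C c)).rootMultiplicity 0 = p.rootMultiplicity c := by
    rw [Polynomial.rootMultiplicity_eq_natTrailingDegree',
      ← Polynomial.rootMultiplicity_eq_natTrailingDegree]
  have key := (isAddVal_ord P).map_aeval
    (fun a ha => Fermat.Agent.S24.ord_algebraMap P (by
      rintro rfl
      exact ha (map_zero _))) hP hπ0 hq
  rw [h2, ← h6]
  exact key

variable (x : F) [CharZero K] [FiniteDimensional K⟮x⟯ F]

/-- **FIB1** Finitely many places lie over `c`. -/
theorem finite_over (hx : Transcendental K x) (c : K) :
    {P : Place K F | 0 < P.ord (x - algebraMap K F c)}.Finite := by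
  haveI : Fact (Transcendental K x) := ⟨hx⟩
  exact finite_over' K x c

/-- **FIB2** `∑_{P over c} ord_P (x - c) = [F : K(x)]`, as a sum over the finite set of places
over `c`. -/
theorem sum_ord_over_toFinset [IsAlgClosed K] (hx : Transcendental K x) (c : K) :
    ∑ P ∈ (finite_over x hx c).toFinset, P.ord (x - algebraMap K F c)
      = (Module.finrank K⟮x⟯ F : ℤ) := by
  haveI : Fact (Transcendental K x) := ⟨hx⟩
  exact sum_ord_over' K x c

/-- **FIB2** `∑_{P over c} ord_P (x - c) = [F : K(x)]`, as a `finsum`. -/
theorem sum_ord_over [IsAlgClosed K] (hx : Transcendental K x) (c : K) :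
    ∑ᶠ P ∈ {P : Place K F | 0 < P.ord (x - algebraMap K F c)}, P.ord (x - algebraMap K F c)
      = (Module.finrank K⟮x⟯ F : ℤ) := by
  rw [finsum_mem_eq_finite_toFinset_sum _ (finite_over x hx c)]
  exact sum_ord_over_toFinset x hx c

/-- Some place lies over `c`. -/
theorem exists_over [IsAlgClosed K] (hx : Transcendental K x) (c : K) :
    ∃ P : Place K F, 0 < P.ord (x - algebraMap K F c) := by
  by_contra hcon
  push Not at hcon
  have h := sum_ord_over_toFinset x hx c
  have hempty : (finite_over x hx c).toFinset = ∅ := by
    ext P
    simp only [Set.Finite.mem_toFinset, Finset.notMem_empty, iff_false]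
    exact fun hP => absurd (show 0 < P.ord (x - algebraMap K F c) from hP) (not_lt.mpr (hcon P))
  rw [hempty, Finset.sum_empty] at h
  have hpos : 0 < Module.finrank K⟮x⟯ F := Module.finrank_pos
  omega

end

end Fermat.Agent.S18.H42
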