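/-
S18 / H42 : **F3-local** — a function without poles over `x = c` has a denominator prime to
`x - c`.

`F/K` a function field: `x ∈ F` transcendental over `K`, `[F : K(x)] < ∞`, `char K = 0`.
"`P` over `c`" means `0 < P.ord (x - algebraMap K F c)`.

* `pcSpec K x c`             : the height-one prime `(x - c)` of `K[x]`.
* `mem_primesAbove_iff`      : primes of the chart above `(x - c)` = places over `c`.
* `exists_denominator_over`  : if `f` has no pole over `c` then `q(x) * f` is integral over
  `K[x]` for some polynomial `q` with `q(c) ≠ 0`.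
(helper42)
-/
import Mathlib
import Fermat.Agent.S18.H42.Fibres
import Fermat.Agent.S18.H53.NormVal

set_option autoImplicit false
set_option linter.unusedSectionVars false
set_option linter.style.haveILetI false
set_option synthInstance.maxHeartbeats 200000
set_option maxHeartbeats 1000000

open AlgebraicCurve IsDedekindDomain Polynomial IntermediateField
open scoped IntermediateField.algebraAdjoinAdjoin

namespace Fermat.Agent.S18.H42

open Fermat.Agent.S24.H52
open scoped ChartInst

noncomputable section

variable {K F : Type*} [Field K] [Field F] [Algebra K F]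

section Chart

variable (K) (x : F) [hx : Fact (Transcendental K x)] [FiniteDimensional K⟮x⟯ F] [CharZero K]

/-- The height-one prime `(x - c)` of `K[x]`. -/
def pcSpec (c : K) : HeightOneSpectrum (Rx K x) :=
  ⟨pc K x c, (pc_isMaximal K x c).isPrime, pc_ne_bot K x c⟩

omit [FiniteDimensional K⟮x⟯ F] [CharZero K] in
@[simp]
theorem pcSpec_asIdeal (c : K) : (pcSpec K x c).asIdeal = pc K x c := rfl

/-- The primes of the chart above `(x - c)` are the places over `c`. -/
theorem mem_primesAbove_iff (c : K) (v : HeightOneSpectrum (Bx K x)) :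
    v ∈ Fermat.Agent.S18.H53.primesAbove (Bx K x) (pcSpec K x c) ↔
      0 < (chartPlace K x v).ord (x - algebraMap K F c) := by
  rw [chartPlace_over_iff]
  constructor
  · intro h
    have h' : v.asIdeal.under (Rx K x) = pc K x c := h
    haveI : v.asIdeal.LiesOver (pc K x c) := ⟨h'.symm⟩
    exact mem_of_liesOver c v.asIdeal
  · intro h
    haveI := v.isPrime
    have h1 := liesOver_of_mem c v.asIdeal h
    exact ((Ideal.liesOver_iff _ _).mp h1).symm

omit [FiniteDimensional K⟮x⟯ F] [CharZero K] in
/-- An element of `K[x]` outside `(x - c)` is `q(x)` with `q(c) ≠ 0`. -/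
theorem exists_poly_of_not_mem_pc (c : K) (s : Rx K x) (hs : s ∉ pc K x c) :
    ∃ q : K[X], q.eval c ≠ 0 ∧ aeval x q = (s : F) := by
  obtain ⟨s, hs'⟩ := s
  have hs'' : s ∈ (Polynomial.aeval (R := K) x).range := by
    rw [← Algebra.adjoin_singleton_eq_range_aeval]
    exact hs'
  obtain ⟨q, hq⟩ := hs''
  refine ⟨q, ?_, hq⟩
  intro h0
  apply hs
  obtain ⟨q', rfl⟩ := Polynomial.dvd_iff_isRoot.mpr h0
  have : (⟨s, hs'⟩ : Rx K x) = xsubR K x c * ⟨aeval x q', aeval_mem_adjoin_singleton K x⟩ := by
    apply Subtype.ext
    show s = (x - algebraMap K F c) * aeval x q'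
    rw [← hq]
    simp
  rw [this]
  exact Ideal.mul_mem_right _ _ (Ideal.subset_span rfl)

/-- A function without poles over `c` is regular at the primes of the chart above `(x - c)`. -/
theorem valuation_le_one_of_reg (c : K) (f : F)
    (hreg : ∀ P : Place K F, 0 < P.ord (x - algebraMap K F c) → 0 ≤ P.ord f) :
    ∀ v ∈ Fermat.Agent.S18.H53.primesAbove (Bx K x) (pcSpec K x c), v.valuation F f ≤ 1 := by
  intro v hv
  rcases eq_or_ne f 0 with rfl | hf
  · simp
  have h1 := hreg _ ((mem_primesAbove_iff K x c v).mp hv)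
  rw [chartPlace_ord v hf] at h1
  exact (primeOrd_nonneg_iff v hf).mp h1

/-- **F3-local**, chart form. -/
theorem exists_denominator_over' (c : K) (f : F)
    (hreg : ∀ P : Place K F, 0 < P.ord (x - algebraMap K F c) → 0 ≤ P.ord f) :
    ∃ q : K[X], q.eval c ≠ 0 ∧ IsIntegral (Algebra.adjoin K {x}) (aeval x q * f) := by
  obtain ⟨s, hs, b, hb⟩ := Fermat.Agent.S18.H53.exists_denominator (B := Bx K x)
    (pcSpec K x c) f (valuation_le_one_of_reg K x c f hreg)
  obtain ⟨q, hq, hqs⟩ := exists_poly_of_not_mem_pc K x c s hs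
  refine ⟨q, hq, ?_⟩
  have h1 : aeval x q * f = algebraMap (Bx K x) F b := by
    rw [hb, hqs]
    rfl
  rw [h1]
  exact b.2

end Chart

variable (x : F) [CharZero K] [FiniteDimensional K⟮x⟯ F]

/-- **F3-local** If `f` has no pole at the places over `x = c`, then `q(x) * f` is integral over
`K[x]` for some polynomial `q` with `q(c) ≠ 0`. -/
theorem exists_denominator_over (hx : Transcendental K x) (c : K) (f : F)
    (hreg : ∀ P : Place K F, 0 < P.ord (x - algebraMap K F c) → 0 ≤ P.ord f) :
    ∃ q : K[X], q.eval c ≠ 0 ∧ IsIntegral (Algebra.adjoin K {x}) (aeval x q * f) := by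
  haveI : Fact (Transcendental K x) := ⟨hx⟩
  exact exists_denominator_over' K x c f hreg

end

end Fermat.Agent.S18.H42
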