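/-
S18 / H42 : **FIB5** — the norm-order formula.

`F/K` a function field: `K` algebraically closed of characteristic zero, `x ∈ F` transcendental
over `K`, `[F : K(x)] < ∞`.  "`P` over `c`" means `0 < P.ord (x - algebraMap K F c)`.

* `norm_order` : if `N_{F/K(x)}(f) = p(x) / q(x)` then
  `rootMultiplicity c p - rootMultiplicity c q = ∑_{P over c} ord_P f`.

The proof is the translation of `H53.ordV_norm` (order of a norm at a prime of a Dedekind domain)
through the place dictionary of `PlaceDict` / `Chart` / `FibreSum`.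
(helper42)
-/
import Mathlib
import Fermat.Agent.S18.H42.LocalInt

set_option autoImplicit false
set_option linter.unusedSectionVars false
set_option linter.style.haveILetI false
set_option synthInstance.maxHeartbeats 200000
set_option maxHeartbeats 1000000

open AlgebraicCurve IsDedekindDomain Polynomial IntermediateField
open scoped IntermediateField.algebraAdjoinAdjoin

namespace Fermat.Agent.S18.H42

open Fermat.Agent.S24.H52
open scoped ChartInst

noncomputable section

variable {K F : Type*} [Field K] [Field F] [Algebra K F]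

section Chart

variable (K) (x : F) [hx : Fact (Transcendental K x)] [FiniteDimensional K⟮x⟯ F] [CharZero K]

/-- The place of `K(x)/K` at `x = c`. -/
def basePlace (c : K) : Place K K⟮x⟯ := placeOfPrime (K := K) (F := K⟮x⟯) (pcSpec K x c)

omit [FiniteDimensional K⟮x⟯ F] [CharZero K] in
theorem gen_sub_eq (c : K) :
    AdjoinSimple.gen K x - algebraMap K K⟮x⟯ c = algebraMap (Rx K x) K⟮x⟯ (xsubR K x c) := by
  apply Subtype.ext
  rfl

omit [FiniteDimensional K⟮x⟯ F] [CharZero K] in
theorem gen_sub_ne_zero (c : K) : AdjoinSimple.gen K x - algebraMap K K⟮x⟯ c ≠ 0 := by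
  intro h
  have h1 := congrArg (algebraMap K⟮x⟯ F) h
  rw [map_sub, map_zero, AdjoinSimple.algebraMap_gen, ← IsScalarTower.algebraMap_apply] at h1
  exact x_sub_ne_zero (K := K) (x := x) c h1

omit [FiniteDimensional K⟮x⟯ F] [CharZero K] in
/-- `x - c` is a uniformiser at the place `x = c` of `K(x)`. -/
theorem basePlace_ord_gen_sub (c : K) :
    (basePlace K x c).ord (AdjoinSimple.gen K x - algebraMap K K⟮x⟯ c) = 1 := by
  rw [basePlace, placeOfPrime_ord _ (gen_sub_ne_zero K x c), gen_sub_eq, primeOrd,
    HeightOneSpectrum.valuation_of_algebraMap,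
    HeightOneSpectrum.intValuation_singleton (pcSpec K x c) (xsubR_ne_zero K x c) rfl,
    WithZero.log_exp, neg_neg]

omit [FiniteDimensional K⟮x⟯ F] [CharZero K] in
/-- The order at `x = c` of an element of `K(x)` written as a quotient of polynomials. -/
theorem basePlace_ord_of_eq (c : K) {y : K⟮x⟯} (hy : y ≠ 0) (p q : K[X]) (hq : q ≠ 0)
    (h : (y : F) * aeval x q = aeval x p) :
    (basePlace K x c).ord y = (p.rootMultiplicity c : ℤ) - q.rootMultiplicity c := by
  have hpos : 0 < (basePlace K x c).ord (AdjoinSimple.gen K x - algebraMap K K⟮x⟯ c) := by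
    rw [basePlace_ord_gen_sub]
    exact one_pos
  have h' : y * aeval (AdjoinSimple.gen K x) q = aeval (AdjoinSimple.gen K x) p := by
    apply Subtype.ext
    rw [MulMemClass.coe_mul, AdjoinSimple.coe_aeval_gen_apply, AdjoinSimple.coe_aeval_gen_apply]
    exact h
  obtain ⟨hq0, hqo⟩ := ord_aeval (basePlace K x c) hpos hq
  have hp : p ≠ 0 := by
    rintro rfl
    rw [map_zero] at h'
    exact mul_ne_zero hy hq0 h'
  obtain ⟨hp0, hpo⟩ := ord_aeval (basePlace K x c) hpos hp
  have hmul := (isAddVal_ord (basePlace K x c)).map_mul hy hq0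
  rw [h', hpo, hqo, basePlace_ord_gen_sub] at hmul
  linarith

/-- Chart form of the norm-order formula. -/
theorem norm_order' [IsAlgClosed K] {f : F} (hf : f ≠ 0) (p q : K[X]) (hq : q ≠ 0)
    (h : (Algebra.norm K⟮x⟯ f : F) * aeval x q = aeval x p) (c : K) :
    (p.rootMultiplicity c : ℤ) - q.rootMultiplicity c
      = ∑ᶠ P ∈ {P : Place K F | 0 < P.ord (x - algebraMap K F c)}, P.ord f := by
  classical
  haveI : CharZero (Rx K x) := charZero_of_injective_algebraMap (algebraMap K (Rx K x)).injective
  haveI : CharZero (FractionRing (Rx K x)) :=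
    charZero_of_injective_algebraMap (IsFractionRing.injective (Rx K x) (FractionRing (Rx K x)))
  have hN : Algebra.norm K⟮x⟯ f ≠ 0 := Algebra.norm_ne_zero_iff.mpr hf
  have key := Fermat.Agent.S18.H53.ordV_norm (B := Bx K x) (L := K⟮x⟯) (pcSpec K x c) hf
  have hL : Fermat.Agent.S18.H53.ordV (pcSpec K x c) K⟮x⟯ (Algebra.norm K⟮x⟯ f)
      = (p.rootMultiplicity c : ℤ) - q.rootMultiplicity c := by
    rw [← basePlace_ord_of_eq K x c hN p q hq h, basePlace, placeOfPrime_ord _ hN]
    rfl
  rw [← hL, key]
  -- the set of places over `c` is the image of the primes above `(x - c)`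
  have himg : {P : Place K F | 0 < P.ord (x - algebraMap K F c)}
      = chartPlace K x '' (Fermat.Agent.S18.H53.primesAbove (Bx K x) (pcSpec K x c)) := by
    ext P
    constructor
    · intro hP
      have hP' : 0 < P.ord (x - algebraMap K F c) := hP
      refine ⟨chartPrime P (x_mem_of_over P hP'), ?_, chartPlace_chartPrime P _⟩
      rw [mem_primesAbove_iff, chartPlace_chartPrime]
      exact hP'
    · rintro ⟨v, hv, rfl⟩
      exact (mem_primesAbove_iff K x c v).mp hv
  rw [himg, finsum_mem_image (chartPlace_injective.injOn),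
    finsum_mem_eq_finite_toFinset_sum _ (Fermat.Agent.S18.H53.finite_primesAbove (pcSpec K x c))]
  refine Finset.sum_congr rfl fun v hv => ?_
  rw [Set.Finite.mem_toFinset] at hv
  have hv' : v.asIdeal.under (Rx K x) = pc K x c := hv
  haveI := v.isPrime
  haveI : v.asIdeal.LiesOver (pc K x c) := ⟨hv'.symm⟩
  rw [inertiaDeg_eq_one c v.asIdeal, Nat.cast_one, one_mul, chartPlace_ord v hf]
  rfl

end Chart

variable (x : F) [CharZero K] [FiniteDimensional K⟮x⟯ F]

/-- **FIB5** The norm-order formula: if `N_{F/K(x)}(f) = p(x) / q(x)` then the order of the norm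
at `x = c` is the sum of the orders of `f` at the places over `c`. -/
theorem norm_order [IsAlgClosed K] (hx : Transcendental K x) {f : F} (hf : f ≠ 0) (p q : K[X])
    (hq : q ≠ 0) (h : (Algebra.norm K⟮x⟯ f : F) * aeval x q = aeval x p) (c : K) :
    (p.rootMultiplicity c : ℤ) - q.rootMultiplicity c
      = ∑ᶠ P ∈ {P : Place K F | 0 < P.ord (x - algebraMap K F c)}, P.ord f := by
  haveI : Fact (Transcendental K x) := ⟨hx⟩
  exact norm_order' K x hf p q hq h c

end

end Fermat.Agent.S18.H42
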