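/-
S18 / H42 : **FIB3** — a nonzero function has finitely many zeros and poles.

`F/K` a function field: `x ∈ F` transcendental over `K`, `[F : K(x)] < ∞`, `char K = 0`.
* `finite_ord_neg_of_mem`  : finitely many poles of `f` among the places with `x ∈ O_P`.
* `finite_ord_ne_zero`     : `{P | P.ord f ≠ 0}` is finite for `f ≠ 0`.
* `finite_ord_neg`, `finite_ord_pos` : the poles / zeros separately (any `f`).
(helper42)
-/
import Mathlib
import Fermat.Agent.S18.H42.Fibres
import Fermat.Agent.S18.H64.SetupInvFields

set_option autoImplicit false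
set_option linter.unusedSectionVars false
set_option linter.style.haveILetI false

open AlgebraicCurve IsDedekindDomain Polynomial IntermediateField

namespace Fermat.Agent.S18.H42

open Fermat.Agent.S24.H52
open scoped ChartInst

noncomputable section

variable {K F : Type*} [Field K] [Field F] [Algebra K F]

section Chart

variable (K) (x : F) [hx : Fact (Transcendental K x)] [FiniteDimensional K⟮x⟯ F] [CharZero K]

/-- Finitely many poles of `f` among the places whose valuation ring contains `x`. -/
theorem finite_ord_neg_of_mem' (f : F) :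
    {P : Place K F | x ∈ P.toValuationSubring ∧ P.ord f < 0}.Finite := by
  have hfin := HeightOneSpectrum.Support.finite (Bx K x) f
  refine (hfin.image (chartPlace K x)).subset ?_
  rintro P ⟨hxP, hP⟩
  refine ⟨chartPrime P hxP, ?_, chartPlace_chartPrime P hxP⟩
  show 1 < (chartPrime P hxP).valuation F f
  have hf : f ≠ 0 := by
    rintro rfl
    rw [Place.ord_zero] at hP
    exact lt_irrefl _ hP
  have h1 := chartPlace_ord (chartPrime P hxP) hf
  rw [chartPlace_chartPrime] at h1
  by_contra hcon
  have h2 := (primeOrd_nonneg_iff (chartPrime P hxP) hf).mpr (not_lt.mp hcon)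
  omega

end Chart

variable (x : F) [CharZero K] [FiniteDimensional K⟮x⟯ F]

/-- Finitely many poles of `f` among the places whose valuation ring contains `x`. -/
theorem finite_ord_neg_of_mem (hx : Transcendental K x) (f : F) :
    {P : Place K F | x ∈ P.toValuationSubring ∧ P.ord f < 0}.Finite := by
  haveI : Fact (Transcendental K x) := ⟨hx⟩
  exact finite_ord_neg_of_mem' K x f

/-- Finitely many places are poles of `x`. -/
theorem finite_ord_x_neg (hx : Transcendental K x) : {P : Place K F | P.ord x < 0}.Finite := by
  have hx0 : x ≠ 0 := by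
    rintro rfl
    exact hx (isAlgebraic_zero)
  have hx' : Transcendental K x⁻¹ := by
    intro h
    apply hx
    have := h.inv
    rwa [inv_inv] at this
  haveI : FiniteDimensional K⟮x⁻¹⟯ F :=
    Fermat.Agent.S18.H64.transport_adjoin_inv K x (fun E => FiniteDimensional E F) inferInstance
  have h := finite_over x⁻¹ hx' (0 : K)
  refine h.subset ?_
  intro P hP
  show 0 < P.ord (x⁻¹ - algebraMap K F 0)
  rw [map_zero, sub_zero, (isAddVal_ord P).map_inv hx0]
  have : P.ord x < 0 := hP
  omega

/-- Finitely many places are poles of `f`. -/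
theorem finite_ord_neg (hx : Transcendental K x) (f : F) :
    {P : Place K F | P.ord f < 0}.Finite := by
  have hx0 : x ≠ 0 := by
    rintro rfl
    exact hx (isAlgebraic_zero)
  refine ((finite_ord_neg_of_mem x hx f).union (finite_ord_x_neg x hx)).subset ?_
  intro P hP
  by_cases hxP : x ∈ P.toValuationSubring
  · exact Or.inl ⟨hxP, hP⟩
  · refine Or.inr ?_
    show P.ord x < 0
    have := (mem_iff_ord_nonneg P hx0).not.mp hxP
    omega

/-- Finitely many places are zeros of `f ≠ 0`. -/
theorem finite_ord_pos (hx : Transcendental K x) {f : F} (hf : f ≠ 0) :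
    {P : Place K F | 0 < P.ord f}.Finite := by
  refine (finite_ord_neg x hx f⁻¹).subset ?_
  intro P hP
  show P.ord f⁻¹ < 0
  rw [(isAddVal_ord P).map_inv hf]
  have : 0 < P.ord f := hP
  omega

/-- **FIB3** A nonzero function has finitely many zeros and poles. -/
theorem finite_ord_ne_zero (hx : Transcendental K x) {f : F} (hf : f ≠ 0) :
    {P : Place K F | P.ord f ≠ 0}.Finite := by
  refine ((finite_ord_neg x hx f).union (finite_ord_pos x hx hf)).subset ?_
  intro P hP
  rcases lt_or_gt_of_ne (show P.ord f ≠ 0 from hP) with h | h
  · exact Or.inl h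
  · exact Or.inr h

end

end Fermat.Agent.S18.H42
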