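/-
S18 / H42 : Gauss–Newton zero count in a residue disc.

`K` algebraically closed, `A` a valuation subring of `K` with residue field `k`.
For `p ∈ A[X]` with nonzero reduction `p̄ ∈ k[X]` and `b ∈ A`, the number of roots of `p` in `K`
(with multiplicity) lying in the residue disc `b + 𝔪_A` equals the multiplicity of `b̄` as a
root of `p̄`.

Mathlib only.  (helper42)
-/
import Mathlib

set_option autoImplicit false

open Polynomial

namespace Fermat.Agent.S18.H42

noncomputable section

variable {K : Type*} [Field K] (A : ValuationSubring K)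

open Classical in
/-- The `A`-integral normalised linear factor attached to `α ∈ K`: `X - α` if `α ∈ A`,
`1 - α⁻¹ X` otherwise. -/
def normFactor (α : K) : A[X] :=
  if h : α ∈ A then X - C (⟨α, h⟩ : A)
  else 1 - C (⟨α⁻¹, (A.mem_or_inv_mem α).resolve_left h⟩ : A) * X

open Classical in
/-- The constant by which `normFactor` differs from `X - α`. -/
def normConst (α : K) : K := if α ∈ A then 1 else -α

theorem normConst_ne_zero (α : K) : normConst A α ≠ 0 := by
  unfold normConst
  split_ifs with h
  · exact one_ne_zero
  · refine neg_ne_zero.mpr fun h0 => h ?_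
    rw [h0]
    exact A.zero_mem

theorem map_normFactor_mul (α : K) :
    (normFactor A α).map (algebraMap A K) * C (normConst A α) = X - C α := by
  unfold normFactor normConst
  split_ifs with h
  · simp only [Polynomial.map_sub, Polynomial.map_X, Polynomial.map_C, map_one, mul_one]
    rfl
  · have h0 : α ≠ 0 := fun h0 => h (by rw [h0]; exact A.zero_mem)
    simp only [Polynomial.map_sub, Polynomial.map_one, Polynomial.map_mul, Polynomial.map_X,
      Polynomial.map_C]
    have h1 : (algebraMap A K) (⟨α⁻¹, (A.mem_or_inv_mem α).resolve_left h⟩ : A) = α⁻¹ := rfl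
    have hc : (C α⁻¹ * C α : K[X]) = 1 := by rw [← C_mul, inv_mul_cancel₀ h0, C_1]
    rw [h1]
    calc (1 - C α⁻¹ * X) * C (-α) = -C α + (C α⁻¹ * C α) * X := by rw [C_neg]; ring
      _ = X - C α := by rw [hc]; ring

theorem inv_mem_maximalIdeal_of_not_mem {α : K} (h : α ∉ A) :
    (⟨α⁻¹, (A.mem_or_inv_mem α).resolve_left h⟩ : A) ∈ IsLocalRing.maximalIdeal A := by
  rw [IsLocalRing.mem_maximalIdeal, mem_nonunits_iff]
  rintro ⟨u, hu⟩
  apply h
  have h0 : α ≠ 0 := fun h0 => h (by rw [h0]; exact A.zero_mem)
  have h1 : ((u⁻¹ : Aˣ) : A) * (u : A) = 1 := Units.inv_mul u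
  have h2 : (((u⁻¹ : Aˣ) : A) : K) * α⁻¹ = 1 := by
    have := congrArg (Subtype.val) h1
    rw [hu] at this
    simpa using this
  have h3 : (((u⁻¹ : Aˣ) : A) : K) = α := by
    field_simp at h2
    exact h2
  rw [← h3]
  exact ((u⁻¹ : Aˣ) : A).2

open Classical in
/-- Reduction of the normalised factor. -/
theorem map_residue_normFactor (α : K) :
    (normFactor A α).map (IsLocalRing.residue A) =
      if h : α ∈ A then X - C (IsLocalRing.residue A ⟨α, h⟩) else 1 := by
  unfold normFactor
  split_ifs with h
  · simp
  · have h0 : IsLocalRing.residue A ⟨α⁻¹, (A.mem_or_inv_mem α).resolve_left h⟩ = 0 := by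
      rw [IsLocalRing.residue_eq_zero_iff]
      exact inv_mem_maximalIdeal_of_not_mem A h
    simp [h0]

/-- Membership in the open residue disc of `b ∈ A`. -/
theorem valuation_sub_lt_one_iff (α : K) (b : A) :
    A.valuation (α - b) < 1 ↔ ∃ h : α ∈ A, IsLocalRing.residue A ⟨α, h⟩ = IsLocalRing.residue A b := by
  constructor
  · intro hlt
    have hmem : α - b ∈ A := (A.valuation_le_one_iff _).mp hlt.le
    have hα : α ∈ A := by
      have := A.add_mem _ _ hmem b.2
      simpa using this
    refine ⟨hα, ?_⟩
    rw [← sub_eq_zero, ← map_sub, IsLocalRing.residue_eq_zero_iff, IsLocalRing.mem_maximalIdeal,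
      mem_nonunits_iff]
    intro hu
    have h1 : A.valuation ((⟨α, hα⟩ - b : A) : K) = 1 := (A.valuation_eq_one_iff _).mp hu
    have h2 : ((⟨α, hα⟩ - b : A) : K) = α - b := rfl
    rw [h2] at h1
    exact hlt.ne h1
  · rintro ⟨hα, hres⟩
    rw [← sub_eq_zero, ← map_sub, IsLocalRing.residue_eq_zero_iff, IsLocalRing.mem_maximalIdeal,
      mem_nonunits_iff] at hres
    have h2 : ((⟨α, hα⟩ - b : A) : K) = α - b := rfl
    have hle : A.valuation (α - b) ≤ 1 := by
      rw [← h2]
      exact (A.valuation_le_one_iff _).mpr (⟨α, hα⟩ - b : A).2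
    refine lt_of_le_of_ne hle fun h1 => hres ?_
    rw [← h2] at h1
    exact (A.valuation_eq_one_iff _).mpr h1

open Classical in
/-- Root multiplicity of the product of the reduced normalised factors. -/
theorem rootMultiplicity_prod_normFactor (R : Multiset K) (b : A) :
    (((R.map (normFactor A)).prod).map (IsLocalRing.residue A)).Monic ∧
    (((R.map (normFactor A)).prod).map (IsLocalRing.residue A)).rootMultiplicity
        (IsLocalRing.residue A b)
      = (R.filter (fun α : K => A.valuation (α - b) < 1)).card := by
  induction R using Multiset.induction_on with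
  | empty => simp
  | cons α R ih =>
    obtain ⟨ihm, ih⟩ := ih
    have hα : ((normFactor A α).map (IsLocalRing.residue A)).Monic := by
      rw [map_residue_normFactor]
      split_ifs with h
      · exact monic_X_sub_C _
      · exact monic_one
    have hmon : (((normFactor A α) * (R.map (normFactor A)).prod).map
        (IsLocalRing.residue A)).Monic := by
      rw [Polynomial.map_mul]
      exact hα.mul ihm
    rw [Multiset.map_cons, Multiset.prod_cons]
    refine ⟨hmon, ?_⟩
    rw [Polynomial.map_mul, rootMultiplicity_mul (by rw [← Polynomial.map_mul]; exact hmon.ne_zero),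
      ih, Multiset.filter_cons, Multiset.card_add]
    congr 1
    rw [map_residue_normFactor]
    by_cases hlt : A.valuation (α - b) < 1
    · obtain ⟨h, hres⟩ := (valuation_sub_lt_one_iff A α b).mp hlt
      rw [dif_pos h, if_pos hlt, rootMultiplicity_X_sub_C, if_pos hres.symm]
      simp
    · rw [if_neg hlt]
      by_cases h : α ∈ A
      · rw [dif_pos h, rootMultiplicity_X_sub_C, if_neg]
        · simp
        · intro hres
          exact hlt ((valuation_sub_lt_one_iff A α b).mpr ⟨h, hres.symm⟩)
      · rw [dif_neg h]
        simp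

theorem prod_X_sub_C_eq_map_prod_normFactor (R : Multiset K) :
    (R.map (fun α : K => X - C α)).prod =
      ((R.map (normFactor A)).prod).map (algebraMap A K) * C ((R.map (normConst A)).prod) := by
  induction R using Multiset.induction_on with
  | empty => simp
  | cons α R ih =>
    simp only [Multiset.map_cons, Multiset.prod_cons, Polynomial.map_mul, C_mul]
    rw [ih, ← map_normFactor_mul A α]
    ring

theorem prod_normConst_ne_zero (R : Multiset K) : (R.map (normConst A)).prod ≠ 0 := by
  induction R using Multiset.induction_on with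
  | empty => simp
  | cons α R ih =>
    rw [Multiset.map_cons, Multiset.prod_cons]
    exact mul_ne_zero (normConst_ne_zero A α) ih

variable [IsAlgClosed K]

open Classical in
/-- **Gauss–Newton zero count.** For `p ∈ A[X]` with nonzero reduction, the number of roots of
`p` in the algebraically closed field `K` (with multiplicity) in the open residue disc of `b`
is the multiplicity of `b̄` as a root of the reduction of `p`. -/
theorem card_roots_disc_eq_rootMultiplicity (p : A[X])
    (hp : p.map (IsLocalRing.residue A) ≠ 0) (b : A) :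
    ((p.map (algebraMap A K)).roots.filter (fun α : K => A.valuation (α - b) < 1)).card
      = (p.map (IsLocalRing.residue A)).rootMultiplicity (IsLocalRing.residue A b) := by
  have hinj : Function.Injective (algebraMap A K) := Subtype.val_injective
  have hp0 : p ≠ 0 := fun h => hp (by rw [h, Polynomial.map_zero])
  have hP0 : p.map (algebraMap A K) ≠ 0 := (Polynomial.map_ne_zero_iff hinj).mpr hp0
  have hsplit := (IsAlgClosed.splits (p.map (algebraMap A K))).eq_prod_roots
  obtain ⟨hQmon, hQ⟩ := rootMultiplicity_prod_normFactor A (p.map (algebraMap A K)).roots b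
  rw [← hQ]
  set Q : A[X] := (((p.map (algebraMap A K)).roots).map (normFactor A)).prod with hQdef
  set c : K := (p.map (algebraMap A K)).leadingCoeff *
    (((p.map (algebraMap A K)).roots).map (normConst A)).prod with hc
  have hc0 : c ≠ 0 :=
    mul_ne_zero (leadingCoeff_ne_zero.mpr hP0) (prod_normConst_ne_zero A _)
  have hPQ : p.map (algebraMap A K) = C c * Q.map (algebraMap A K) := by
    conv_lhs => rw [hsplit, prod_X_sub_C_eq_map_prod_normFactor A]
    rw [hc, C_mul]
    ring
  rcases A.mem_or_inv_mem c with hcA | hcA
  · have h1 : p = C (⟨c, hcA⟩ : A) * Q := by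
      apply Polynomial.map_injective _ hinj
      rw [hPQ, Polynomial.map_mul, Polynomial.map_C]
      rfl
    have h2 : p.map (IsLocalRing.residue A) =
        C (IsLocalRing.residue A ⟨c, hcA⟩) * Q.map (IsLocalRing.residue A) := by
      conv_lhs => rw [h1]
      rw [Polynomial.map_mul, Polynomial.map_C]
    rw [h2, rootMultiplicity_mul (by rw [← h2]; exact hp), rootMultiplicity_C, zero_add]
  · have h1 : C (⟨c⁻¹, hcA⟩ : A) * p = Q := by
      apply Polynomial.map_injective _ hinj
      rw [Polynomial.map_mul, Polynomial.map_C, hPQ, ← mul_assoc]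
      have : (algebraMap A K) (⟨c⁻¹, hcA⟩ : A) = c⁻¹ := rfl
      rw [this, ← C_mul, inv_mul_cancel₀ hc0, C_1, one_mul]
    have h2 : C (IsLocalRing.residue A ⟨c⁻¹, hcA⟩) * p.map (IsLocalRing.residue A) =
        Q.map (IsLocalRing.residue A) := by
      rw [← h1, Polynomial.map_mul, Polynomial.map_C]
    rw [← h2, rootMultiplicity_mul (by rw [h2]; exact hQmon.ne_zero), rootMultiplicity_C, zero_add]

end

end Fermat.Agent.S18.H42
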