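/-
S18 / H42 : the node `tube_of_gen` of the C1 sub-skeleton (helper49, `H49/C1Skel.lean`), the
characteristic-zero half of the tubes (D8).

A function `τ ∈ S_b` vanishing at a place `P` of the residue disc of `b`, whose norm to `K(x)`
is `(x - c0) * ε` with `c0` in the disc and `ε` a unit of `R_b`, has a simple zero at `P` and no
other zero on the disc.

Proof: `H9C.tube_of_norm` (helper9) + the norm-order formula `norm_order` (FIB5) + FIB1/FIB3 +
the count of the zeros of `(x - c0) * ε` on the disc.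
(helper42)
-/
import Mathlib
import Fermat.Agent.S18.H42.NormOrder
import Fermat.Agent.S18.H42.FiniteOrd
import Fermat.Agent.S18.H9C.DiscDegree

set_option autoImplicit false
set_option linter.unusedSectionVars false
set_option linter.style.haveILetI false

open AlgebraicCurve Polynomial IntermediateField

namespace Fermat.Agent.S18.H42

open Fermat.Agent.S24.H52 Fermat.Agent.S18.H74

noncomputable section

variable {K : Type*} [Field K] {A : ValuationSubring K} {F : Type*} [Field F] [Algebra K F]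
  {O : ValuationSubring F} {x : F}

/-- An element of `K(x)` is a quotient of polynomials in `x`. -/
theorem exists_aeval_mul_eq (ε : K⟮x⟯) :
    ∃ p q : K[X], ((ε : F) = 0 ∨ aeval x q ≠ 0) ∧ (ε : F) * aeval x q = aeval x p := by
  obtain ⟨r, s, hrs⟩ := (IntermediateField.mem_adjoin_simple_iff K (ε : F)).mp ε.2
  by_cases hs : aeval x s = 0
  · refine ⟨0, 0, Or.inl ?_, by simp⟩
    rw [hrs, hs, div_zero]
  · refine ⟨r, s, Or.inr hs, ?_⟩
    rw [hrs, div_mul_cancel₀ _ hs]

/-- A function of `K(x)` which is a unit at the places over `c` has as many zeros as poles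
at `c`. -/
theorem rootMultiplicity_eq_of_ord_eq_zero [IsAlgClosed K] [CharZero K]
    (hx : Transcendental K x) [FiniteDimensional K⟮x⟯ F] {e : F} {p q : K[X]} (hq : q ≠ 0)
    (hp : p ≠ 0) (h : e * aeval x q = aeval x p) (c : K)
    (hc : ∀ P : Place K F, 0 < P.ord (x - algebraMap K F c) → P.ord e = 0) :
    p.rootMultiplicity c = q.rootMultiplicity c := by
  obtain ⟨P, hP⟩ := exists_over x hx c
  obtain ⟨hq0, hqo⟩ := ord_aeval P hP hq
  obtain ⟨hp0, hpo⟩ := ord_aeval P hP hp
  have he : e ≠ 0 := by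
    rintro rfl
    rw [zero_mul] at h
    exact hp0 h.symm
  have hmul := (isAddVal_ord P).map_mul he hq0
  rw [h, hpo, hqo, hc P hP, zero_add] at hmul
  have := mul_right_cancel₀ (ne_of_gt hP) hmul
  exact_mod_cast this

open Classical in
/-- **`tube_of_gen`** (C1 sub-skeleton, D8 char-0 half), statement verbatim. -/
theorem tube_of_gen [IsAlgClosed K] [CharZero K] (hx : Transcendental K x)
    [FiniteDimensional K⟮x⟯ F] (b : K) (P : Place K F) (hP : InDisc A x b P)
    (τ : F) (hτ : τ ∈ discRing A O x b) (hτO : τ⁻¹ ∈ O) (hτP : 0 < P.ord τ)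
    (c0 : K) (ε : K⟮x⟯) (hc0 : c0 - b ∈ A.nonunits)
    (hN : ((Algebra.norm K⟮x⟯ τ : K⟮x⟯) : F) = (x - algebraMap K F c0) * (ε : F))
    (hε1 : (ε : F) ∈ discRing A O x b) (hε2 : (ε : F)⁻¹ ∈ discRing A O x b) :
    P.ord τ = 1 ∧ ∀ P' : Place K F, InDisc A x b P' → P' ≠ P → P'.ord τ = 0 := by
  have hτ0 : τ ≠ 0 := by
    rintro rfl
    rw [Place.ord_zero] at hτP
    exact lt_irrefl _ hτP
  have hN0 : ((Algebra.norm K⟮x⟯ τ : K⟮x⟯) : F) ≠ 0 := by
    have := Algebra.norm_ne_zero_iff (R := K⟮x⟯).mpr hτ0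
    simpa using this
  have hε0 : (ε : F) ≠ 0 := by
    intro h
    rw [h, mul_zero] at hN
    exact hN0 hN
  obtain ⟨pε, qε, hq0, hpq⟩ := exists_aeval_mul_eq ε
  have hqε : aeval x qε ≠ 0 := hq0.resolve_left hε0
  have hqε0 : qε ≠ 0 := by
    rintro rfl
    exact hqε (map_zero _)
  have hpε0 : pε ≠ 0 := by
    rintro rfl
    rw [map_zero] at hpq
    exact mul_ne_zero hε0 hqε hpq
  -- the norm as a quotient of polynomials
  have hNpq : ((Algebra.norm K⟮x⟯ τ : K⟮x⟯) : F) * aeval x qε = aeval x ((X - C c0) * pε) := by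
    rw [hN, mul_assoc, hpq, map_mul, map_sub, aeval_X, aeval_C]
  -- `ε` is a unit at every place of the disc
  have hεord : ∀ P' : Place K F, InDisc A x b P' → P'.ord (ε : F) = 0 := by
    intro P' hP'
    have h1 := hε1.2 P' hP'
    have h2 := hε2.2 P' hP'
    rw [(isAddVal_ord P').map_inv hε0] at h2
    omega
  have hrm : ∀ c : K, c - b ∈ A.nonunits → pε.rootMultiplicity c = qε.rootMultiplicity c := by
    intro c hc
    exact rootMultiplicity_eq_of_ord_eq_zero hx hqε0 hpε0 hpq c
      (fun P' hP' => hεord P' ⟨c, hc, hP'⟩)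
  -- the count
  have hcount : ((X - C c0) * pε).roots.countP (fun c => c - b ∈ A.nonunits)
      = qε.roots.countP (fun c => c - b ∈ A.nonunits) + 1 := by
    have hne : (X - C c0) * pε ≠ 0 := mul_ne_zero (X_sub_C_ne_zero c0) hpε0
    have h1 : Multiset.countP (fun c => c - b ∈ A.nonunits) ({c0} : Multiset K) = 1 := by
      rw [← Multiset.cons_zero,
        Multiset.countP_cons_of_pos (p := fun c => c - b ∈ A.nonunits) (a := c0) 0 hc0,
        Multiset.countP_zero]
    rw [Polynomial.roots_mul hne, roots_X_sub_C, Multiset.countP_add, h1, add_comm]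
    congr 1
    set Cs : Finset K := (pε.roots.toFinset ∪ qε.roots.toFinset).filter
      (fun c => c - b ∈ A.nonunits) with hCs
    have hCs' : ∀ c ∈ Cs, c - b ∈ A.nonunits := fun c hc => (Finset.mem_filter.mp hc).2
    rw [Fermat.Agent.S18.H9C.countP_roots_eq_sum pε _ Cs (fun c hc hcb =>
        Finset.mem_filter.mpr ⟨Finset.mem_union.mpr (Or.inl (Multiset.mem_toFinset.mpr hc)), hcb⟩)
        hCs',
      Fermat.Agent.S18.H9C.countP_roots_eq_sum qε _ Cs (fun c hc hcb =>
        Finset.mem_filter.mpr ⟨Finset.mem_union.mpr (Or.inr (Multiset.mem_toFinset.mpr hc)), hcb⟩)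
        hCs']
    exact Finset.sum_congr rfl fun c hc => hrm c (hCs' c hc)
  exact Fermat.Agent.S18.H9C.tube_of_norm A x b (fun c => finite_over x hx c) τ
    (finite_ord_ne_zero x hx hτ0) hτ.2 ((X - C c0) * pε) qε
    (fun c => norm_order x hx hτ0 _ _ hqε0 hNpq c) hcount P hP hτP

end

end Fermat.Agent.S18.H42
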